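import Fermat.Agent.OrdinaryProj.Eigen
import Fermat.Agent.Eisenstein.LevelOne
import Fermat.Agent.Eisenstein.PsiInt
import Fermat.Agent.Period.Integral

/-!
# Rational parts of the expansions of level `p`

A `ℚ`-linear `φ : ℂ → ℚ` applied to the coefficients of a form of level one gives a rational form.
Applied to a form of level `p` it gives a series with bounded denominators: times `Δ` the form is a
combination of integral cusp forms.
-/

set_option autoImplicit false
set_option linter.unusedSectionVars false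

noncomputable section

open UpperHalfPlane hiding I
open PowerSeries CongruenceSubgroup
open scoped MatrixGroups ModularForm Manifold

namespace FA.LevelPPadic

open FA.Eis FA.Tau FA.SiegelKlingen FA.PadicForms

local notation "toCQ" => PowerSeries.map (Rat.castHom ℂ)

/-- `φ` applied to the coefficients. -/
def ratPart (φ : ℂ →ₗ[ℚ] ℚ) (A : PowerSeries ℂ) : PowerSeries ℚ :=
  PowerSeries.mk fun n => φ (coeff n A)

variable {φ : ℂ →ₗ[ℚ] ℚ}

@[simp]
theorem coeff_ratPart (φ : ℂ →ₗ[ℚ] ℚ) (A : PowerSeries ℂ) (n : ℕ) :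
    coeff n (ratPart φ A) = φ (coeff n A) := coeff_mk _ _

theorem exists_ratPart : ∃ φ : ℂ →ₗ[ℚ] ℚ, ∀ q : ℚ, φ (q : ℂ) = q := by
  obtain ⟨φ, hφ⟩ := (Algebra.linearMap ℚ ℂ).exists_leftInverse_of_injective
    (LinearMap.ker_eq_bot.2 (fun a b hab => Rat.cast_injective (α := ℂ) (by simpa using hab)))
  exact ⟨φ, fun q => by simpa using LinearMap.congr_fun hφ q⟩

theorem ratPart_add (A B : PowerSeries ℂ) : ratPart φ (A + B) = ratPart φ A + ratPart φ B :=
  PowerSeries.ext fun n => by simp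

theorem ratPart_smul_rat (q : ℚ) (A : PowerSeries ℂ) :
    ratPart φ ((q : ℂ) • A) = C q * ratPart φ A :=
  PowerSeries.ext fun n => by
    rw [coeff_ratPart, PowerSeries.coeff_smul, coeff_C_mul, coeff_ratPart, smul_eq_mul,
      ← Rat.smul_def, map_smul, smul_eq_mul]

/-- `φ` is linear over rational series. -/
theorem ratPart_mul (A : PowerSeries ℂ) (R : PowerSeries ℚ) :
    ratPart φ (A * toCQ R) = ratPart φ A * R :=
  PowerSeries.ext fun n => by
    rw [coeff_ratPart, coeff_mul, map_sum, coeff_mul]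
    refine Finset.sum_congr rfl fun x _ => ?_
    rw [coeff_map, coeff_ratPart, eq_ratCast, mul_comm, ← Rat.smul_def, map_smul, smul_eq_mul,
      mul_comm]

theorem ratPart_map (hφ : ∀ q : ℚ, φ (q : ℂ) = q) (R : PowerSeries ℚ) :
    ratPart φ (toCQ R) = R :=
  PowerSeries.ext fun n => by rw [coeff_ratPart, coeff_map, eq_ratCast, hφ]

/-- **The rational part of a level one form is a form.** -/
theorem isRatForm_ratPart {k : ℕ} {f : ℍ → ℂ} (hf : IsLv 1 (k : ℤ) f) {A : PowerSeries ℂ}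
    (hA : HasQ 1 f A) (φ : ℂ →ₗ[ℚ] ℚ) : IsRatForm k (ratPart φ A) := by
  have hz : IsRatForm k (0 : PowerSeries ℚ) := ⟨0, by simp [qExpansion_zero]⟩
  have hmono : ∀ i : {x : ℕ × ℕ // 4 * (x.1 : ℤ) + 6 * x.2 = (k : ℤ)},
      IsRatForm k ((monoInt i.1).map (Int.castRingHom ℚ)) := fun i => by
    refine isRatForm_of_hasQ (f := LevelOneRing.monomials (k : ℤ) i)
      (fun γ => (FA.ModField.slash_eq_iff_smul γ).2 (monomial_smul _ i γ)) ?_
    rw [map_int_rat]
    exact hasQ_monomial (k : ℤ) i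
  have key : ∀ g ∈ Submodule.span ℂ (Set.range (LevelOneRing.monomials (k : ℤ))),
      ∃ B, HasQ 1 g B ∧ ∀ φ : ℂ →ₗ[ℚ] ℚ, IsRatForm k (ratPart φ B) := fun g hg => by
    induction hg using Submodule.span_induction with
    | mem x hx =>
      obtain ⟨i, rfl⟩ := hx
      refine ⟨_, hasQ_monomial (k : ℤ) i, fun φ => ?_⟩
      rw [← map_int_rat, ← one_mul (toCQ _), ratPart_mul,
        show ratPart φ (1 : PowerSeries ℂ) = C (φ 1) from PowerSeries.ext fun n => by
          rw [coeff_ratPart, coeff_one, coeff_C]; split_ifs <;> simp,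
        ← PowerSeries.smul_eq_C_mul]
      exact (hmono i).smul _
    | zero =>
      exact ⟨0, HasQ.zero 1, fun φ => by
        rwa [show ratPart φ (0 : PowerSeries ℂ) = 0 from PowerSeries.ext fun n => by simp]⟩
    | add x y _ _ hx hy =>
      obtain ⟨B, hB, hB'⟩ := hx
      obtain ⟨D, hD, hD'⟩ := hy
      exact ⟨B + D, hB.add hD, fun φ => by
        rw [ratPart_add]
        exact (hB' φ).add (hD' φ)⟩
    | smul c x _ hx =>
      obtain ⟨B, hB, hB'⟩ := hx
      refine ⟨c • B, hB.smul c, fun φ => ?_⟩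
      convert hB' (φ.comp (LinearMap.mulLeft ℚ c)) using 1
      exact PowerSeries.ext fun n => by simp
  obtain ⟨B, hB, hB'⟩ := key _ (LevelOneRing.mem_span (k + 1) (k : ℤ) (by omega) hf.toMF)
  rw [hA.unique one_pos hB]
  exact hB' φ

variable {p : ℕ} [Fact p.Prime]

/-- `Δ` times a form is a cusp form. -/
theorem mul_discriminant_mem {k : ℤ} {f : ℍ → ℂ} (hf : IsLv p k f) :
    f * ModularForm.discriminant ∈ FA.Period.cuspForms p (k + 12) := by
  have hΔ : IsLv p (12 : ℤ) ModularForm.discriminant := isLv_discriminant.of_levelOne p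
  have hm := hf.mul hΔ
  refine FA.Period.mem_cuspForms.2 ⟨⟨hm.inv, hm.hol, hm.bdd⟩, fun γ => ?_⟩
  have hinv : ModularForm.discriminant ∣[(12 : ℤ)] γ = ModularForm.discriminant :=
    isLv_discriminant.inv' γ
  rw [ModularForm.mul_slash_SL2, hinv]
  have h0 : IsZeroAtImInfty ModularForm.discriminant :=
    FA.Tau.hasQ_discriminant.isZero one_pos (by simp [deltaInt])
  have h1 := ((hf.bdd γ).mul_isLittleO ((Asymptotics.isLittleO_one_iff ℝ).2 h0))
  simp only [Pi.one_apply, mul_one] at h1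
  exact (Asymptotics.isLittleO_one_iff ℝ).1 h1

/-- The expansion of a cusp form has bounded denominators in every rational part. -/
theorem exists_den_cusp {k : ℤ} (F : CuspForm (Gamma0 p) k) {A : PowerSeries ℂ}
    (hA : HasQ 1 ⇑F A) (φ : ℂ →ₗ[ℚ] ℚ) :
    ∃ D : ℕ, D ≠ 0 ∧ ∀ n, ∃ z : ℤ, (D : ℚ) * φ (coeff n A) = z := by
  have key : ∀ G ∈ Submodule.span ℂ ((CuspForm.intLattice p k : Submodule ℤ (CuspForm (Gamma0 p) k)) :
      Set (CuspForm (Gamma0 p) k)), ∀ φ : ℂ →ₗ[ℚ] ℚ,
        ∃ D : ℕ, D ≠ 0 ∧ ∀ n, ∃ z : ℤ, (D : ℚ) * φ (FA.Period.coeffMap p k G n) = z := fun G hG => by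
    induction hG using Submodule.span_induction with
    | mem x hx =>
      intro φ
      refine ⟨(φ 1).den, (φ 1).den_ne_zero, fun n => ?_⟩
      induction hx using Submodule.span_induction with
      | mem y hy =>
        obtain ⟨m, hm⟩ := hy n
        refine ⟨(φ 1).num * m, ?_⟩
        rw [show FA.Period.coeffMap p k y n = (m : ℂ) from hm,
          show (m : ℂ) = (m : ℚ) • (1 : ℂ) by simp, map_smul, smul_eq_mul, mul_left_comm,
          Rat.den_mul_eq_num]
        push_cast
        ring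
      | zero => exact ⟨0, by simp⟩
      | add u v _ _ hu hv =>
        obtain ⟨a, ha⟩ := hu
        obtain ⟨b, hb⟩ := hv
        exact ⟨a + b, by rw [map_add, Pi.add_apply, map_add, mul_add, ha, hb, Int.cast_add]⟩
      | smul c u _ hu =>
        obtain ⟨a, ha⟩ := hu
        refine ⟨c * a, ?_⟩
        rw [map_zsmul, Pi.smul_apply, map_zsmul, zsmul_eq_mul, mul_left_comm, ha, Int.cast_mul]
    | zero => exact fun φ => ⟨1, one_ne_zero, fun n => ⟨0, by simp⟩⟩
    | add x y _ _ hx hy =>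
      intro φ
      obtain ⟨D, hD, hD'⟩ := hx φ
      obtain ⟨E, hE, hE'⟩ := hy φ
      refine ⟨D * E, mul_ne_zero hD hE, fun n => ?_⟩
      obtain ⟨a, ha⟩ := hD' n
      obtain ⟨b, hb⟩ := hE' n
      refine ⟨E * a + D * b, ?_⟩
      rw [map_add, Pi.add_apply, map_add]
      push_cast
      linear_combination (E : ℚ) * ha + (D : ℚ) * hb
    | smul c x _ hx =>
      intro φ
      obtain ⟨D, hD, hD'⟩ := hx (φ.comp (LinearMap.mulLeft ℚ c))
      refine ⟨D, hD, fun n => ?_⟩
      rw [map_smul, Pi.smul_apply, smul_eq_mul]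
      simpa using hD' n
  have hF : F ∈ Submodule.span ℂ ((CuspForm.intLattice p k : Submodule ℤ (CuspForm (Gamma0 p) k)) :
      Set (CuspForm (Gamma0 p) k)) := by
    rw [FA.Period.hasIntegralStructure p k]
    trivial
  obtain ⟨D, hD, hD'⟩ := key F hF φ
  refine ⟨D, hD, fun n => ?_⟩
  have e : FA.Period.coeffMap p k F n = coeff n A := congrArg (coeff n) (hA.qExpansion_eq one_pos)
  rw [← e]
  exact hD' n

/-- **The rational part of an expansion of level `p` has bounded coefficients.** -/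
theorem exists_supLe_ratPart {k : ℤ} {f : ℍ → ℂ} (hf : IsLv p k f) {A : PowerSeries ℂ}
    (hA : HasQ 1 f A) (φ : ℂ →ₗ[ℚ] ℚ) : ∃ C : ℝ, SupLe (toQp p (ratPart φ A)) C := by
  have hQ : HasQ 1 (f * ModularForm.discriminant) (A * deltaInt.map (Int.castRingHom ℂ)) :=
    hA.mul one_pos FA.Tau.hasQ_discriminant
  obtain ⟨D, hD, hD'⟩ := exists_den_cusp (FA.Period.toCuspForm' _ (mul_discriminant_mem hf))
    (show HasQ 1 ⇑(FA.Period.toCuspForm' _ (mul_discriminant_mem hf)) _ from hQ) φ
  choose z hz using hD'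
  obtain ⟨v, hv⟩ : ∃ v : PowerSeries ℤ, ModularCurve.dedekindEtaUnit * v = 1 :=
    ⟨_, ModularCurve.dedekindEtaUnit_mul_inv⟩
  have e : (C (D : ℚ) * ratPart φ A) * X =
      (PowerSeries.mk z * v).map (Int.castRingHom ℚ) := by
    have h1 : C (D : ℚ) * ratPart φ A * deltaInt.map (Int.castRingHom ℚ) =
        (PowerSeries.mk z).map (Int.castRingHom ℚ) := PowerSeries.ext fun n => by
      rw [mul_assoc, coeff_C_mul, ← ratPart_mul, coeff_ratPart, map_int_rat, coeff_map, coeff_mk,
        eq_intCast]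
      exact hz n
    rw [map_mul, ← h1, deltaInt, map_mul, map_X, mul_assoc (C (D : ℚ) * _), mul_assoc X,
      ← map_mul, hv, map_one, mul_one]
  refine ⟨‖(D : ℚ_[p])⁻¹‖ * 1, fun n => ?_⟩
  have h2 := congrArg (coeff (n + 1)) e
  rw [coeff_succ_mul_X, coeff_C_mul, coeff_map, eq_intCast] at h2
  have h3 : ((coeff n (ratPart φ A) : ℚ) : ℚ_[p]) =
      (D : ℚ_[p])⁻¹ * ((coeff (n + 1) (PowerSeries.mk z * v) : ℤ) : ℚ_[p]) := by
    rw [← Rat.cast_intCast, ← h2, Rat.cast_mul, Rat.cast_natCast,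
      inv_mul_cancel_left₀ (Nat.cast_ne_zero.2 hD)]
  rw [coeff_toQp, h3, norm_mul]
  exact mul_le_mul_of_nonneg_left (Padic.norm_int_le_one _) (norm_nonneg _)

end FA.LevelPPadic

end
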