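import Fermat.Agent.LevelPPadic.Main
import Fermat.Agent.Root.SummaryWeightTwoLevelP
import Mathlib.Topology.Algebra.Module.FiniteDimension

/-!
# Hida: ordinary forms are classical of level `p`

The rational forms of level `p` of one weight span a finite-dimensional space, so it is closed and
contains `e` of each of its members. In weight two it is the whole ordinary part.
-/

set_option autoImplicit false
set_option linter.unusedSectionVars false

noncomputable section

open UpperHalfPlane hiding I
open PowerSeries CongruenceSubgroup Filter Topology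
open scoped MatrixGroups ModularForm

namespace FA.LevelPPadic

open FA.Eis FA.PadicForms FA.OrdinaryProj

variable {p : ℕ} [Fact p.Prime] {k : ℕ}

variable (p k) in
/-- The rational series of level `p` and weight `k`. -/
def ratLevelSpace : Submodule ℚ (PowerSeries ℚ) where
  carrier := {A | IsRatLevel p k A}
  zero_mem' := IsRatLevel.zero
  add_mem' := IsRatLevel.add
  smul_mem' := fun c _ h => IsRatLevel.smul h c

variable (p k) in
/-- The `ℚ_p`-span of the rational forms of level `p` and weight `k`. -/
def classicalSpace : Submodule ℚ_[p] (PowerSeries ℚ_[p]) :=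
  Submodule.span ℚ_[p] {s | ∃ A, IsRatLevel p k A ∧ toQp p A = s}

theorem finite_ratLevelSpace (k : ℕ) : Module.Finite ℚ ↥(ratLevelSpace p k) := by
  set J := ((k : ℤ) * (Gamma0 p).index).toNat / 12 + 1
  refine Module.Finite.of_injective
    ({ toFun := fun A j => coeff (j : ℕ) (A : PowerSeries ℚ)
       map_add' := fun A B => funext fun j => by simp
       map_smul' := fun c A => funext fun j => by simp } :
      ↥(ratLevelSpace p k) →ₗ[ℚ] (Fin J → ℚ)) ((injective_iff_map_eq_zero _).2 fun A hA => ?_)
  obtain ⟨F, hF⟩ := isRatLevel_iff.1 A.2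
  have h0 : F = 0 := ModularForm.sturm_bound_Gamma0 p F fun n hn => by
    rw [hF, coeff_map,
      show coeff n (A : PowerSeries ℚ) = 0 from congrFun hA ⟨n, Nat.lt_succ_of_le hn⟩, map_zero]
  refine Subtype.ext (map_rat_injective ?_)
  rw [← hF, h0, Submodule.coe_zero, map_zero]
  exact qExpansion_zero _

theorem finite_classicalSpace (k : ℕ) : Module.Finite ℚ_[p] ↥(classicalSpace p k) := by
  have := finite_ratLevelSpace (p := p) k
  obtain ⟨s, hs⟩ := (Module.Finite.iff_fg (N := ratLevelSpace p k)).1 this
  have hle : classicalSpace p k ≤ Submodule.span ℚ_[p] (toQp p '' (s : Set (PowerSeries ℚ))) := by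
    refine Submodule.span_le.2 ?_
    rintro _ ⟨A, hA, rfl⟩
    have hA' : A ∈ Submodule.span ℚ (s : Set (PowerSeries ℚ)) := hs.symm ▸ hA
    clear hA
    induction hA' using Submodule.span_induction with
    | mem x hx => exact Submodule.subset_span ⟨x, hx, rfl⟩
    | zero => rw [map_zero]; exact zero_mem _
    | add x y _ _ hx hy => rw [map_add]; exact add_mem hx hy
    | smul c x _ hx =>
      rw [PowerSeries.smul_eq_C_mul, map_mul, show toQp p (C c) = C (c : ℚ_[p]) by simp [toQp],
        ← PowerSeries.smul_eq_C_mul]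
      exact Submodule.smul_mem _ _ hx
  have := Module.Finite.span_of_finite ℚ_[p] ((s.finite_toSet).image (toQp p))
  exact Submodule.finiteDimensional_of_le hle

/-- **The span of the forms of level `p` is closed**. -/
theorem mem_classicalSpace_of_tendsto {S : ℕ → PowerSeries ℚ_[p]} {f : PowerSeries ℚ_[p]}
    (hS : ∀ i, S i ∈ classicalSpace p k) (h : SeriesTendsto S f) : f ∈ classicalSpace p k := by
  have := finite_classicalSpace (p := p) k
  obtain ⟨L, hL⟩ : ∃ L : PowerSeries ℚ_[p] →ₗ[ℚ_[p]] (ℕ → ℚ_[p]), ∀ g n, L g n = coeff n g :=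
    ⟨LinearMap.pi fun n => coeff n, fun _ _ => rfl⟩
  have hmem : L f ∈ (classicalSpace p k).map L := by
    have ht : Tendsto (fun i => L (S i)) atTop (𝓝 (L f)) := tendsto_pi_nhds.2 fun n => ?_
    · exact IsClosed.mem_of_tendsto (Submodule.closed_of_finiteDimensional _) ht
        (Eventually.of_forall fun i => Submodule.mem_map_of_mem (f := L) (hS i))
    simp only [hL]
    exact tendsto_coeff h n
  obtain ⟨g, hg, he⟩ := hmem
  rwa [← show g = f from PowerSeries.ext fun n => by rw [← hL g, he, hL]]

theorem isPadicForm_of_mem (h5 : 5 ≤ p) {f : PowerSeries ℚ_[p]} (hf : f ∈ classicalSpace p k) :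
    IsPadicForm f (natWeight p k) := by
  induction hf using Submodule.span_induction with
  | mem x hx =>
    obtain ⟨A, hA, rfl⟩ := hx
    exact hA.isPadicForm h5
  | zero => exact isPadicForm_zero h5 _
  | add x y _ _ hx hy => exact hx.add h5 hy
  | smul c x _ hx => rw [PowerSeries.smul_eq_C_mul]; exact hx.C_mul c

theorem uSer_mem_classicalSpace {f : PowerSeries ℚ_[p]} (hf : f ∈ classicalSpace p k) :
    uSer p f ∈ classicalSpace p k := by
  induction hf using Submodule.span_induction with
  | mem x hx =>
    obtain ⟨A, hA, rfl⟩ := hx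
    exact Submodule.subset_span ⟨_, hA.uSer, toQp_uSer A⟩
  | zero =>
    rw [show uSer p (0 : PowerSeries ℚ_[p]) = 0 from PowerSeries.ext fun n => by simp [coeff_uSer]]
    exact zero_mem _
  | add x y _ _ hx hy =>
    rw [show uSer p (x + y) = uSer p x + uSer p y from
      PowerSeries.ext fun n => by simp [coeff_uSer]]
    exact add_mem hx hy
  | smul c x _ hx =>
    rw [show uSer p (c • x) = c • uSer p x from PowerSeries.ext fun n => by simp [coeff_uSer]]
    exact Submodule.smul_mem _ _ hx

theorem uPow_mem_classicalSpace {f : PowerSeries ℚ_[p]} (hf : f ∈ classicalSpace p k) (i : ℕ) :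
    uPow p i f ∈ classicalSpace p k := by
  induction i with
  | zero => rwa [uPow_zero]
  | succ i ih =>
    rw [show i + 1 = 1 + i from add_comm i 1, ← uPow_add', uPow_one]
    exact uSer_mem_classicalSpace ih

/-- `e` keeps the span of the forms of level `p`. -/
theorem ordProj_mem_classicalSpace (h5 : 5 ≤ p) {f : PowerSeries ℚ_[p]}
    (hf : f ∈ classicalSpace p k) : ordProj p f ∈ classicalSpace p k :=
  mem_classicalSpace_of_tendsto (fun i => uPow_mem_classicalSpace hf i.factorial)
    (ordProj_spec h5 (isPadicForm_of_mem h5 hf)).1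

/-- **Ordinary forms of weight `k ≥ 3` are classical.** -/
theorem ordPart_le_classicalSpace (h5 : 5 ≤ p) (hk : 3 ≤ k) :
    ordPart (natWeight p k) ≤ classicalSpace p k := fun f hf => by
  obtain ⟨h, hh, -, rfl⟩ := exists_classical h5 hk hf
  refine ordProj_mem_classicalSpace h5 (Submodule.span_mono ?_ hh)
  rintro s ⟨S, hS, rfl⟩
  exact ⟨S, isRatLevel_of_isRatForm hS, rfl⟩

/-- In weight two `e` fixes the forms of level `p`. -/
theorem mem_ordPart_two (h5 : 5 ≤ p) {A : PowerSeries ℚ} (hA : IsRatLevel p 2 A) :
    toQp p A ∈ ordPart (natWeight p 2) := by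
  have h2 : ∀ j, uPow p (2 * j) (toQp p A) = toQp p A := fun j => by
    induction j with
    | zero => exact uPow_zero _
    | succ j ih =>
      rw [Nat.mul_succ, ← uPow_add', show (2 : ℕ) = 1 + 1 from rfl, ← uPow_add', uPow_one,
        uPow_one, ← toQp_uSer, ← toQp_uSer, hA.uSer_uSer]
      exact ih
  refine (mem_ordPart h5).2 ⟨hA.isPadicForm h5, ordProj_eq fun ε hε =>
    eventually_atTop.2 ⟨2, fun i hi => ?_⟩⟩
  obtain ⟨j, hj⟩ := Nat.dvd_factorial two_pos hi
  show SupLe (uPow p i.factorial (toQp p A) - toQp p A) ε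
  rw [hj, h2, sub_self]
  exact fun n => by simp [hε.le]

/-- **The ordinary part of weight two is the span of the forms of level `p`.** -/
theorem ordPart_two (h5 : 5 ≤ p) : ordPart (natWeight p 2) = classicalSpace p 2 := by
  refine le_antisymm ?_ (Submodule.span_le.2 ?_)
  · have hp : p.Prime := Fact.out
    have hc : (((p + 1 : ℕ)) : ZMod (p - 1)) = (natWeight p 2).1 := by
      show (((p + 1 : ℕ)) : ZMod (p - 1)) = ((2 : ℕ) : ZMod (p - 1))
      rw [show p + 1 = 2 + (p - 1) by omega, Nat.cast_add, ZMod.natCast_self, add_zero]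
    have := finite_ordModP (p := p) h5 (p + 1)
    have : Module.Finite (ZMod p) ↥(ordModP p (p + 1)) := .of_finite
    obtain ⟨b, -⟩ : ∃ b : Module.Basis (Fin (Module.finrank (ZMod p) ↥(ordModP p (p + 1))))
        (ZMod p) ↥(ordModP p (p + 1)), True := ⟨Module.finBasis (ZMod p) _, trivial⟩
    have hb : ∀ j, ∃ (A : PowerSeries ℚ) (g : PowerSeries ℤ_[p]), IsRatLevel p 2 A ∧
        toQps p g = toQp p A ∧ redSer p g = (b j : PowerSeries (ZMod p)) := fun j => by
      obtain ⟨F, T, hF, hT⟩ := (FA.Summary.weight_two_levelP_eq_weight_succ p h5 _).2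
        ((mem_ordModP h5).1 (b j).2).1
      refine ⟨T.map (Int.castRingHom ℚ), T.map (Int.castRingHom ℤ_[p]), ?_,
        PowerSeries.ext fun n => by simp, PowerSeries.ext fun n => by simp [← hT]⟩
      refine ⟨⇑F, (isLv_of_modularForm F).congr_weight (by norm_num), ?_⟩
      rw [map_int_rat]
      have h1 := (isLv_of_modularForm F).hasQ
      rwa [show qe ⇑F = T.map (Int.castRingHom ℂ) from hF] at h1
    choose A g hA hg hr using hb
    have e : (fun j => redSer p (g j)) = (ordModP p (p + 1)).subtype ∘ b := funext hr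
    have hord : ∀ j, IsIntForm (natWeight p 2) (g j) ∧
        ordProj p (toQps p (g j)) = toQps p (g j) := fun j => by
      rw [IsIntForm, hg]
      exact (mem_ordPart h5).1 (mem_ordPart_two h5 (hA j))
    rw [ordPart_eq_span h5 (by omega) hc hord (by
      rw [e, Set.range_comp, Submodule.span_image, b.span_eq, Submodule.map_subtype_top]),
      Submodule.span_le]
    rintro _ ⟨j, rfl⟩
    exact Submodule.subset_span ⟨A j, hA j, (hg j).symm⟩
  · rintro _ ⟨A, hA, rfl⟩
    exact mem_ordPart_two h5 hA

end FA.LevelPPadic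

end
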