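import Fermat.Agent.LevelPPadic.Base

/-!
# Serre: forms of level `p` are `p`-adic forms of level one

Let `E` be congruent to `1` modulo a high power of `p`, of weight `a`, and `g = E - p^a E(pz)`. Then
`g` is congruent to `1` and its Atkin–Lehner transform to `0`, so the trace to level one of `f g`
is close to `f`, of a weight close to that of `f`.
-/

set_option autoImplicit false
set_option linter.unusedSectionVars false

noncomputable section

open UpperHalfPlane hiding I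
open PowerSeries CongruenceSubgroup
open scoped MatrixGroups ModularForm Manifold

namespace FA.LevelPPadic

open FA.Eis FA.PadicForms

local notation "toCQ" => PowerSeries.map (Rat.castHom ℂ)

/-- The series of a form of level `p` and weight `k` with rational coefficients. -/
def IsRatLevel (p k : ℕ) (A : PowerSeries ℚ) : Prop :=
  ∃ f : ℍ → ℂ, IsLv p (k : ℤ) f ∧ HasQ 1 f (toCQ A)

variable {p : ℕ} [Fact p.Prime] {k : ℕ} {A B : PowerSeries ℚ}

theorem isLv_of_modularForm {k : ℤ}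
    (F : ModularForm (Gamma0 p : Subgroup (GL (Fin 2) ℝ)) k) : IsLv p k ⇑F := by
  refine ⟨fun γ hγ => F.slash_action_eq' _ ⟨γ, hγ, rfl⟩, F.holo', fun M => ?_⟩
  have hc : IsCusp ((Matrix.SpecialLinearGroup.mapGL ℝ M) • OnePoint.infty)
      (Gamma0 p : Subgroup (GL (Fin 2) ℝ)) := by
    rw [Subgroup.IsArithmetic.isCusp_iff_isCusp_SL2Z]
    exact isCusp_SL2Z_iff'.mpr ⟨M, rfl⟩
  exact (ModularFormClass.bdd_at_cusps F hc) _ rfl

theorem isRatLevel_iff : IsRatLevel p k A ↔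
    ∃ F : ModularForm (Gamma0 p : Subgroup (GL (Fin 2) ℝ)) (k : ℤ),
      qExpansion 1 ⇑F = toCQ A := by
  constructor
  · rintro ⟨f, hf, hA⟩
    refine ⟨{ toFun := f
              slash_action_eq' := ?_
              holo' := hf.hol
              bdd_at_cusps' := ?_ }, hA.qExpansion_eq one_pos⟩
    · rintro _ ⟨γ, hγ, rfl⟩
      exact hf.inv γ hγ
    · intro c hc
      rw [Subgroup.IsArithmetic.isCusp_iff_isCusp_SL2Z] at hc
      exact (OnePoint.isBoundedAt_iff_forall_SL2Z hc).mpr fun γ _ => hf.bdd γ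
  · rintro ⟨F, hF⟩
    refine ⟨⇑F, isLv_of_modularForm F, ?_⟩
    have := (isLv_of_modularForm F).hasQ
    rwa [show qe ⇑F = toCQ A from hF] at this

theorem IsRatLevel.zero : IsRatLevel p k 0 :=
  ⟨0, IsLv.zero p _, by rw [map_zero]; exact HasQ.zero 1⟩

theorem IsRatLevel.add (h : IsRatLevel p k A) (h' : IsRatLevel p k B) :
    IsRatLevel p k (A + B) := by
  obtain ⟨f, hf, hA⟩ := h
  obtain ⟨g, hg, hB⟩ := h'
  exact ⟨f + g, hf.add hg, by rw [map_add]; exact hA.add hB⟩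

theorem IsRatLevel.smul (h : IsRatLevel p k A) (q : ℚ) : IsRatLevel p k (q • A) := by
  obtain ⟨f, hf, hA⟩ := h
  refine ⟨(q : ℂ) • f, hf.smul _, ?_⟩
  rw [PowerSeries.smul_eq_C_mul, map_mul, map_C, ← PowerSeries.smul_eq_C_mul]
  exact hA.smul _

theorem isRatLevel_of_isRatForm (h : IsRatForm k A) : IsRatLevel p k A := by
  obtain ⟨F, hF⟩ := h.hasQ
  exact ⟨⇑F, (IsLv.of_modularForm F).of_levelOne p, hF⟩

/-- In odd weight there are no forms of level `p`. -/
theorem IsRatLevel.eq_zero_of_odd (h : IsRatLevel p k A) (hk : ¬Even k) : A = 0 := by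
  obtain ⟨f, hf, hA⟩ := h
  have hodd : Odd (k : ℤ) := by exact_mod_cast Nat.not_even_iff_odd.1 hk
  have hmem : (-1 : SL(2, ℤ)) ∈ Gamma0 p := by
    rw [Gamma0_mem]
    simp
  have h0 : f = 0 := funext fun z => by
    have h1 := (FA.ModField.slash_eq_iff_smul _).1 (hf.inv _ hmem) z
    have hd : denom ((-1 : SL(2, ℤ)) : GL (Fin 2) ℝ) z = -1 := by simp [denom]
    rw [hd, hodd.neg_one_zpow, show ((-1 : SL(2, ℤ)) • z) = z by simp] at h1
    rw [Pi.zero_apply]
    linear_combination (1 / 2 : ℂ) * h1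
  subst h0
  have := hA.eq_zero_of_fun one_pos
  exact map_rat_injective (by rw [this, map_zero])

theorem map_uSer (S : PowerSeries ℚ) : toCQ (uSer p S) = Up p (toCQ S) :=
  PowerSeries.ext fun n => by simp [coeff_uSer, mul_comm]

theorem map_vSer (S : PowerSeries ℚ) : toCQ (vSer p S) = Vp p (toCQ S) :=
  PowerSeries.ext fun n => by
    rw [coeff_map, coeff_vSer, coeff_Vp]
    split_ifs <;> simp

theorem ratPart_Up (φ : ℂ →ₗ[ℚ] ℚ) (S : PowerSeries ℂ) :
    ratPart φ (Up p S) = uSer p (ratPart φ S) :=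
  PowerSeries.ext fun n => by simp [coeff_uSer, mul_comm]

theorem W_levelOne {w : ℤ} {H : ℍ → ℂ} (hH : IsLv 1 w H) : W p w H = dil p H := by
  rw [W, hH.inv']

/-- **Serre**: a rational form of level `p` is a `p`-adic form of level one of the same weight. -/
theorem IsRatLevel.isPadicForm (h5 : 5 ≤ p) (h : IsRatLevel p k A) :
    IsPadicForm (toQp p A) (natWeight p k) := by
  rcases Classical.em (Even k) with hk | hk
  swap
  · rw [h.eq_zero_of_odd hk, map_zero]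
    exact FA.OrdinaryProj.isPadicForm_zero h5 _
  obtain ⟨f, hf, hA⟩ := h
  have hp : p.Prime := Fact.out
  obtain ⟨φ, hφ⟩ := exists_ratPart
  have hkz : Even (k : ℤ) := by exact_mod_cast hk
  have hWf := hf.W hkz
  obtain ⟨C₁, hC₁⟩ := exists_supLe_ratPart (p := p) hWf hWf.hasQ φ
  obtain ⟨C₂, hC₂⟩ := exists_supLe_ratPart (p := p) hf hA φ
  rw [ratPart_map hφ] at hC₂
  obtain ⟨e, he⟩ := exists_pow_ge (p := p) (max C₁ C₂)
  intro a
  obtain ⟨b, hb⟩ : ∃ b, b = a + e := ⟨_, rfl⟩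
  obtain ⟨S₀, hS₀, hS₀'⟩ := exists_pad (p := p) h5 b 1
  obtain ⟨n, hn⟩ : ∃ n, n = (p - 1) * (p ^ b * 1) := ⟨_, rfl⟩
  rw [← hn] at hS₀
  obtain ⟨F, hF⟩ := hS₀.hasQ
  have hbn : b + 1 ≤ n := by
    rw [hn, mul_one]
    exact (Nat.succ_le_of_lt (Nat.lt_pow_self hp.one_lt)).trans
      (Nat.le_mul_of_pos_left _ (show 0 < p - 1 by omega))
  have hneven : Even (n : ℤ) := by
    rw [hn, Nat.cast_mul]
    refine Even.mul_right ?_ _
    exact_mod_cast hp.even_sub_one (by omega)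
  have hc : ((p : ℂ) ^ n) * (p : ℂ) ^ (-(n : ℤ)) = 1 := by
    rw [← zpow_natCast, ← zpow_add₀ (NeZero.ne _), add_neg_cancel, zpow_zero]
  have hH : IsLv 1 (n : ℤ) ⇑F := IsLv.of_modularForm F
  have hg : IsLv p (n : ℤ) (⇑F - ((p : ℂ) ^ n) • dil p ⇑F) :=
    (hH.of_levelOne p).sub ((hH.dil p).smul _)
  have hgQ : HasQ 1 (⇑F - ((p : ℂ) ^ n) • dil p ⇑F)
      (toCQ (S₀ - C ((p : ℚ) ^ n) * vSer p S₀)) := by
    rw [map_sub, map_mul, map_C, map_vSer, map_pow (Rat.castHom ℂ), map_natCast (Rat.castHom ℂ),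
      ← PowerSeries.smul_eq_C_mul]
    exact hF.sub ((hF.dil p).smul _)
  have hgW : HasQ 1 (W p (n : ℤ) (⇑F - ((p : ℂ) ^ n) • dil p ⇑F)) (toCQ (vSer p S₀ - S₀)) := by
    rw [W_sub, W_smul, W_dil hH, smul_smul, hc, one_smul, W_levelOne hH, map_sub, map_vSer]
    exact (hF.dil p).sub hF
  have hfg := hf.mul hg
  have hkn : Even ((k : ℤ) + (n : ℤ)) := hkz.add hneven
  have hWQ : HasQ 1 (W p ((k : ℤ) + (n : ℤ)) (f * (⇑F - ((p : ℂ) ^ n) • dil p ⇑F)))
      (qe (W p (k : ℤ) f) * toCQ (vSer p S₀ - S₀)) := by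
    rw [W_mul]
    exact hWf.hasQ.mul one_pos hgW
  have hQ := hasQ_trace hkn hfg (hA.mul one_pos hgQ) hWQ
  have hR := isRatForm_ratPart ((isLv_one_trace hkn hfg).congr_weight
    (show (k : ℤ) + (n : ℤ) = ((k + n : ℕ) : ℤ) by push_cast; ring)) hQ φ
  rw [ratPart_add, ← map_mul, ratPart_map hφ, show (p : ℂ) = (((p : ℚ)) : ℂ) from (Rat.cast_natCast p).symm,
    ratPart_smul_rat,
    ratPart_Up, ratPart_mul] at hR
  refine ⟨k + n, _, hR, (near_natWeight k a).of_dvd ?_, ?_⟩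
  · rw [Nat.cast_add, add_sub_cancel_left, hn, mul_one]
    exact Int.natCast_dvd_natCast.2
      (Nat.mul_dvd_mul_left _ (pow_dvd_pow _ (hb ▸ Nat.le_add_right a e)))
  have hp1 : ‖(p : ℚ_[p])‖ ≤ 1 := by exact_mod_cast Padic.norm_int_le_one (p := p) (p : ℤ)
  have hone : SupLe (1 : PowerSeries ℚ_[p]) 1 := fun j => by
    rw [coeff_one]; split_ifs <;> simp
  have hS1 : SupLe (toQp p S₀) 1 :=
    hone.of_near (hS₀'.mono (zpow_le_one_of_nonpos₀ one_lt_cast.le (by omega)))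
  have hvS : SupLe (vSer p (toQp p S₀) - toQp p S₀) ((p : ℝ) ^ (-((b + 1 : ℕ) : ℤ))) := by
    refine SupLe.trans ?_ hS₀'.symm
    have h1 : vSer p (1 : PowerSeries ℚ_[p]) = 1 := PowerSeries.ext fun j => by
      rw [coeff_vSer, coeff_one, coeff_one]
      by_cases hj : p ∣ j
      · rw [if_pos hj]
        by_cases h0 : j = 0
        · rw [h0, Nat.zero_div]
        · rw [if_neg h0,
            if_neg (show j / p ≠ 0 from fun e' => h0 (Nat.eq_zero_of_dvd_of_div_eq_zero hj e'))]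
      · rw [if_neg hj, if_neg (show j ≠ 0 from fun h0 => hj (h0 ▸ dvd_zero p))]
    rw [← h1, ← vSer_sub]
    exact hS₀'.vSer
  have hCC : ∀ q : ℚ, toQp p (C q) = C (q : ℚ_[p]) := fun q => by simp [toQp]
  rw [map_add, map_mul, map_mul, map_sub, map_mul, hCC, hCC, toQp_uSer, toQp_vSer, map_mul, map_sub,
    toQp_vSer, Rat.cast_pow, Rat.cast_natCast]
  have key : toQp p A * (toQp p S₀ - C ((p : ℚ_[p]) ^ n) * vSer p (toQp p S₀)) +
        C (p : ℚ_[p]) * uSer p (toQp p (ratPart φ (qe (W p (k : ℤ) f))) *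
          (vSer p (toQp p S₀) - toQp p S₀)) - toQp p A =
      toQp p A * ((toQp p S₀ - 1) - C ((p : ℚ_[p]) ^ n) * vSer p (toQp p S₀)) +
        C (p : ℚ_[p]) * uSer p (toQp p (ratPart φ (qe (W p (k : ℤ) f))) *
          (vSer p (toQp p S₀) - toQp p S₀)) := by ring
  rw [key]
  have hle : (p : ℝ) ^ (e : ℤ) * (p : ℝ) ^ (-((b + 1 : ℕ) : ℤ)) ≤ (p : ℝ) ^ (-(a : ℤ)) := by
    rw [← zpow_add₀ (zero_lt_one.trans (one_lt_cast (p := p))).ne']
    exact zpow_le_zpow_right₀ one_lt_cast.le (by omega)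
  have hg1 : SupLe ((toQp p S₀ - 1) - C ((p : ℚ_[p]) ^ n) * vSer p (toQp p S₀))
      ((p : ℝ) ^ (-((b + 1 : ℕ) : ℤ))) := by
    refine hS₀'.sub ((hS1.vSer.C_mul _).mono ?_)
    rw [mul_one, Padic.norm_p_pow]
    exact pow_neg_mono hbn
  refine (((hC₂.mono ((le_max_right _ _).trans he)).mul hg1).mono hle).add ?_
  refine ((((hC₁.mono ((le_max_left _ _).trans he)).mul hvS).uSer).C_mul _).mono ?_
  exact (mul_le_of_le_one_left (mul_nonneg (zpow_pos' _).le (zpow_pos' _).le) hp1).trans hle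

/-- `U` keeps the forms of level `p`. -/
theorem IsRatLevel.uSer (h : IsRatLevel p k A) : IsRatLevel p k (FA.PadicForms.uSer p A) := by
  rcases Classical.em (Even k) with hk | hk
  swap
  · rw [h.eq_zero_of_odd hk, show FA.PadicForms.uSer p (0 : PowerSeries ℚ) = 0 from
      PowerSeries.ext fun n => by simp [coeff_uSer]]
    exact .zero
  obtain ⟨f, hf, hA⟩ := h
  have hkz : Even (k : ℤ) := by exact_mod_cast hk
  have ht := (isLv_one_trace hkz (hf.W hkz)).of_levelOne p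
  rw [W_W p hkz, show avg p (((p : ℂ) ^ (-(k : ℤ))) • f) = ((p : ℂ) ^ (-(k : ℤ))) • avg p f from
    funext fun τ => by simp [avg, Finset.mul_sum, mul_left_comm], smul_smul] at ht
  have h1 := (ht.sub (hf.W hkz)).smul ((p : ℂ) * (p : ℂ) ^ (-(k : ℤ)))⁻¹
  rw [add_sub_cancel_left, smul_smul, inv_mul_cancel₀
    (mul_ne_zero (NeZero.ne _) (zpow_ne_zero _ (NeZero.ne _))), one_smul] at h1
  exact ⟨_, h1, by rw [map_uSer]; exact hA.avg p⟩

/-- **`U² = 1` in weight two.** -/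
theorem IsRatLevel.uSer_uSer (h : IsRatLevel p 2 A) :
    FA.PadicForms.uSer p (FA.PadicForms.uSer p A) = A := by
  obtain ⟨f, hf, hA⟩ := h
  have hf2 : IsLv p 2 f := hf.congr_weight (by norm_num)
  have h1 := hasQ_W_weight_two hf2 hA
  have h2 := hasQ_W_weight_two (hf2.W even_two) h1
  rw [W_W p even_two] at h2
  have h3 := (hA.smul ((p : ℂ) ^ (-2 : ℤ))).unique one_pos h2
  rw [map_neg, map_smul, smul_neg, neg_neg, smul_smul, ← map_uSer, ← map_uSer,
    show (p : ℂ)⁻¹ * (p : ℂ)⁻¹ = (p : ℂ) ^ (-2 : ℤ) by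
      rw [zpow_neg, zpow_ofNat, sq, mul_inv]] at h3
  exact (map_rat_injective (smul_right_injective (PowerSeries ℂ)
    (zpow_ne_zero _ (NeZero.ne (p : ℂ))) h3)).symm

end FA.LevelPPadic

end
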